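import Fermat.Agent.S11.CaseII

/-!
# Case II for the ring of integers of the `p`-th cyclotomic field

We instantiate the abstract descent of `Fermat.Agent.S11.CaseII` with `R = 𝓞 K`, `K` a `p`-th
cyclotomic extension of `ℚ`, assuming `𝓞 K` is a PID and Kummer's lemma.
-/

set_option linter.unusedSectionVars false

namespace Fermat.Agent.S11

open Finset NumberField Polynomial

variable {p : ℕ} [hpf : Fact p.Prime] {K : Type*} [Field K] [NumberField K]
  [IsCyclotomicExtension {p} ℚ K] {ζ : K}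

/-- Every element of `𝓞 K` is congruent to an integer modulo `ζ - 1`. -/
lemma exists_int_sub_dvd (hζ : IsPrimitiveRoot ζ p) (x : 𝓞 K) :
    ∃ n : ℤ, (hζ.toInteger - 1) ∣ x - n := by
  obtain ⟨f, hf⟩ := hζ.integralPowerBasis.exists_eq_aeval' x
  rw [hζ.integralPowerBasis_gen] at hf
  refine ⟨f.eval 1, ?_⟩
  have h1 : x = (f.map (algebraMap ℤ (𝓞 K))).eval hζ.toInteger := by
    rw [hf, aeval_def, eval₂_eq_eval_map]
  have h2 : ((f.eval 1 : ℤ) : 𝓞 K) = (f.map (algebraMap ℤ (𝓞 K))).eval 1 := by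
    rw [eval_one_map]; simp
  rw [h1, h2]
  exact sub_dvd_eval_sub _ _ _

/-- The product formula `x ^ p + y ^ p = ∏ a < p, (x + ζ ^ a * y)` in `𝓞 K`. -/
lemma pow_add_pow_eq_prod_range (hζ : IsPrimitiveRoot ζ p) (hodd : Odd p) (x y : 𝓞 K) :
    x ^ p + y ^ p = ∏ a ∈ range p, (x + hζ.toInteger ^ a * y) := by
  have hζ' := hζ.toInteger_isPrimitiveRoot
  rw [hζ'.pow_add_pow_eq_prod_add_mul x y hodd]
  symm
  refine Finset.prod_bij (fun a _ => hζ.toInteger ^ a) ?_ ?_ ?_ ?_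
  · intro a _
    rw [mem_nthRootsFinset hpf.out.pos, ← pow_mul, mul_comm, pow_mul, hζ'.pow_eq_one, one_pow]
  · intro a ha b hb hab
    exact hζ'.pow_inj (Finset.mem_range.mp ha) (Finset.mem_range.mp hb) hab
  · intro ξ hξ
    rw [mem_nthRootsFinset hpf.out.pos] at hξ
    have : NeZero p := ⟨hpf.out.ne_zero⟩
    obtain ⟨i, hi, hiξ⟩ := hζ'.eq_pow_of_pow_eq_one hξ
    exact ⟨i, Finset.mem_range.mpr hi, hiξ⟩
  · intro a _
    rfl

/-- `𝓞 K` with `ζ` satisfies the abstract `KummerSetup`. -/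
theorem kummerSetup (hζ : IsPrimitiveRoot ζ p) (hp3 : 3 ≤ p) :
    KummerSetup (𝓞 K) p hζ.toInteger where
  prime := hpf.out
  three_le := hp3
  zeta_pow := hζ.toInteger_isPrimitiveRoot.pow_eq_one
  prod_eq := pow_add_pow_eq_prod_range hζ
    (hpf.out.odd_of_ne_two (by omega))
  lam_prime := hζ.zeta_sub_one_prime'
  assoc := IsCyclotomicExtension.Rat.associated_zeta_sub_one_pow_prime p hζ
  unit_geom := fun k hk0 hkp =>
    hζ.toInteger_isPrimitiveRoot.geom_sum_isUnit hpf.out.two_le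
      ((Nat.Prime.coprime_iff_not_dvd hpf.out).mpr (Nat.not_dvd_of_pos_of_lt hk0 hkp)).symm
  res := exists_int_sub_dvd hζ
  int_dvd := fun n hn => (IsCyclotomicExtension.Rat.zeta_sub_one_dvd_intCast_iff' p hζ).mp hn

/-- **Case II of Fermat's Last Theorem** for the exponent `p`, assuming that the ring of integers
of the `p`-th cyclotomic field is a PID and Kummer's lemma: if `a ^ p + b ^ p = c ^ p` with
`a`, `b` coprime integers, `c ≠ 0`, then `p ∤ c`. -/
theorem caseII_int (K : Type*) [Field K] [NumberField K] [IsCyclotomicExtension {p} ℚ K]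
    (hp3 : 3 ≤ p) [IsPrincipalIdealRing (𝓞 K)]
    (KL : KummerLemma (𝓞 K) p) {a b c : ℤ} (hab : IsCoprime a b) (hc : c ≠ 0)
    (hpc : (p : ℤ) ∣ c) (h : a ^ p + b ^ p = c ^ p) : False := by
  have hp := hpf.out
  have hζ := IsCyclotomicExtension.zeta_spec p ℚ K
  have S := kummerSetup hζ hp3
  -- write `c = p ^ k * c'` with `p ∤ c'`, `1 ≤ k`
  have hfin : FiniteMultiplicity (p : ℤ) c := by
    rw [Int.finiteMultiplicity_iff]
    exact ⟨by simpa using hp.ne_one, hc⟩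
  obtain ⟨c', hc', hpc'⟩ := hfin.exists_eq_pow_mul_and_not_dvd
  set k := multiplicity (p : ℤ) c with hk
  have hk1 : 1 ≤ k := by
    rw [hk]
    exact hfin.le_multiplicity_of_pow_dvd (by simpa using hpc)
  obtain ⟨u, hu⟩ := S.assoc
  -- `hu : (ζ - 1) ^ (p - 1) * u = p`
  have hc'nd : ¬ (hζ.toInteger - 1) ∣ ((c' : ℤ) : 𝓞 K) := fun hd => hpc' (S.int_dvd c' hd)
  have hcast : ((a : ℤ) : 𝓞 K) ^ p + ((b : ℤ) : 𝓞 K) ^ p = ((c : ℤ) : 𝓞 K) ^ p := by
    exact_mod_cast congrArg (Int.cast : ℤ → 𝓞 K) h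
  refine S.caseII_abstract KL ((p - 1) * k) (Nat.mul_pos (by omega) hk1) (a : 𝓞 K) (b : 𝓞 K)
    (c' : 𝓞 K) (u ^ (k * p)) (IsCoprime.intCast hab) hc'nd ?_
  rw [hcast, hc']
  push_cast
  rw [← hu]
  ring

/-- Glue: Fermat's equation with exponent an odd prime `p` has no solution in coprime nonzero
integers as soon as Case I and Case II (in the form where `p ∣ c`) are excluded. -/
theorem flt_coprime_of_caseI_of_caseII {p : ℕ} (hp : p.Prime) (hodd : Odd p)
    (caseI : ∀ a b c : ℤ, ¬ (p : ℤ) ∣ a * b * c → a ^ p + b ^ p ≠ c ^ p)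
    (caseII : ∀ a b c : ℤ, IsCoprime a b → c ≠ 0 → (p : ℤ) ∣ c → a ^ p + b ^ p ≠ c ^ p)
    {a b c : ℤ} (ha : a ≠ 0) (hb : b ≠ 0) (hc : c ≠ 0)
    (hab : IsCoprime a b) (hac : IsCoprime a c) (hbc : IsCoprime b c) :
    a ^ p + b ^ p ≠ c ^ p := by
  intro h
  have hp' : Prime (p : ℤ) := Nat.prime_iff_prime_int.mp hp
  by_cases hdiv : (p : ℤ) ∣ a * b * c
  · rcases hp'.dvd_or_dvd hdiv with h1 | h1
    · rcases hp'.dvd_or_dvd h1 with h2 | h2
      · -- `p ∣ a`: `c ^ p + (-b) ^ p = a ^ p`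
        refine caseII c (-b) a hbc.symm.neg_right ha h2 ?_
        rw [hodd.neg_pow]; linarith
      · -- `p ∣ b`: `c ^ p + (-a) ^ p = b ^ p`
        refine caseII c (-a) b hac.symm.neg_right hb h2 ?_
        rw [hodd.neg_pow]; linarith
    · exact caseII a b c hab hc h1 h
  · exact caseI a b c hdiv h

end Fermat.Agent.S11
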