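import Mathlib

/-!
# Case I of Fermat's Last Theorem via Sophie Germain's criterion

Generic theorem over `ℤ` and the instances `(p, q) = (5, 11), (7, 29), (11, 23), (13, 53)`.
-/

set_option autoImplicit false

namespace Fermat.Agent.S11

open Finset

/-- The cofactor `φ(y, z) = ∑_{i<p} y^i (-z)^(p-1-i)` with `φ(y,z) * (y+z) = y^p + z^p` for odd `p`. -/
def sgPhi (p : ℕ) (y z : ℤ) : ℤ := ∑ i ∈ range p, y ^ i * (-z) ^ (p - 1 - i)

theorem sgPhi_mul (p : ℕ) (hp : Odd p) (y z : ℤ) : sgPhi p y z * (y + z) = y ^ p + z ^ p := by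
  have h := geom_sum₂_mul y (-z) p
  rw [hp.neg_pow] at h
  rw [sgPhi]
  rw [sub_neg_eq_add, sub_neg_eq_add] at h
  exact h

/-- `φ(y,z) ≡ p * y^(p-1)` modulo `y + z`. -/
theorem add_dvd_sgPhi_sub (p : ℕ) (y z : ℤ) : y + z ∣ sgPhi p y z - p * y ^ (p - 1) := by
  have h1 : (p : ℤ) * y ^ (p - 1) = ∑ _i ∈ range p, y ^ (p - 1) := by
    simp
  rw [sgPhi, h1, ← Finset.sum_sub_distrib]
  refine Finset.dvd_sum fun i hi => ?_
  have hi' : i < p := Finset.mem_range.mp hi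
  have h2 : y ^ (p - 1) = y ^ i * y ^ (p - 1 - i) := by
    rw [← pow_add]; congr 1; omega
  rw [h2, ← mul_sub]
  refine Dvd.dvd.mul_left ?_ _
  have h3 := sub_dvd_pow_sub_pow (-z) y (p - 1 - i)
  have h4 : -z - y = -(y + z) := by ring
  rw [h4, neg_dvd] at h3
  exact h3

/-- If `x^p + y^p + z^p = 0` with `y, z` coprime and `p ∤ x`, then `y + z` and `φ(y,z)` are
coprime. -/
theorem isCoprime_add_sgPhi {p : ℕ} (hp : p.Prime) (hodd : Odd p) {x y z : ℤ}
    (hyz : IsCoprime y z) (h : x ^ p + y ^ p + z ^ p = 0) (hpx : ¬ (p : ℤ) ∣ x) :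
    IsCoprime (y + z) (sgPhi p y z) := by
  have hmul := sgPhi_mul p hodd y z
  refine isCoprime_of_prime_dvd ?_ ?_
  · rintro ⟨h1, -⟩
    -- y + z = 0 gives x ^ p = 0
    have : x ^ p = 0 := by
      have : y ^ p + z ^ p = 0 := by rw [← hmul, h1, mul_zero]
      linarith
    have hx0 : x = 0 := pow_eq_zero_iff (hp.ne_zero) |>.mp this
    exact hpx (hx0 ▸ dvd_zero _)
  · intro r hr hr1 hr2
    have h3 : r ∣ (p : ℤ) * y ^ (p - 1) := by
      have := (hr1.trans (add_dvd_sgPhi_sub p y z))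
      have h4 := dvd_sub hr2 this
      rwa [sub_sub_cancel] at h4
    rcases hr.dvd_or_dvd h3 with h5 | h5
    · -- r ∣ p, so p ∣ y + z, so p ∣ x
      have hpp : Prime (p : ℤ) := Nat.prime_iff_prime_int.mp hp
      have hass : Associated r (p : ℤ) := hr.associated_of_dvd hpp h5
      have h6 : (p : ℤ) ∣ y + z := hass.symm.dvd.trans hr1
      have h7 : (p : ℤ) ∣ x ^ p := by
        have : x ^ p = -(sgPhi p y z * (y + z)) := by rw [hmul]; linarith
        rw [this, dvd_neg]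
        exact Dvd.dvd.mul_left h6 _
      exact hpx (hpp.dvd_of_dvd_pow h7)
    · have h6 : r ∣ y := hr.dvd_of_dvd_pow h5
      have h7 : r ∣ z := by
        have := dvd_sub hr1 h6
        rwa [add_sub_cancel_left] at this
      exact hr.not_isUnit (hyz.isUnit_of_dvd' h6 h7)

/-- Both factors are `p`-th powers. -/
theorem exists_pow_eq {p : ℕ} (hp : p.Prime) (hodd : Odd p) {x y z : ℤ}
    (hyz : IsCoprime y z) (h : x ^ p + y ^ p + z ^ p = 0) (hpx : ¬ (p : ℤ) ∣ x) :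
    (∃ a : ℤ, y + z = a ^ p) ∧ ∃ α : ℤ, sgPhi p y z = α ^ p := by
  have hcop := isCoprime_add_sgPhi hp hodd hyz h hpx
  have hmul : (y + z) * sgPhi p y z = (-x) ^ p := by
    rw [mul_comm, sgPhi_mul p hodd, hodd.neg_pow]; linarith
  exact Int.eq_pow_of_mul_eq_pow_odd hcop hodd hmul


/-- Value of `φ(y,z)` modulo `q` when `q ∣ y + z`. -/
theorem sgPhi_cast_of_add_eq_zero (p q : ℕ) (y z : ℤ) (hyz : ((y + z : ℤ) : ZMod q) = 0) :
    ((sgPhi p y z : ℤ) : ZMod q) = (p : ZMod q) * (y : ZMod q) ^ (p - 1) := by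
  have hz : ((-z : ℤ) : ZMod q) = (y : ZMod q) := by
    have : (y : ZMod q) + (z : ZMod q) = 0 := by exact_mod_cast hyz
    push_cast
    linear_combination (-1 : ZMod q) * this
  rw [sgPhi, Int.cast_sum]
  have : ∀ i ∈ range p, (((y ^ i * (-z) ^ (p - 1 - i) : ℤ)) : ZMod q)
      = (y : ZMod q) ^ i * (y : ZMod q) ^ (p - 1 - i) := by
    intro i _
    rw [Int.cast_mul, Int.cast_pow, Int.cast_pow, hz]
  rw [Finset.sum_congr rfl this, geom_sum₂_self]

/-- Value of `φ(x,y)` modulo `q` when `q ∣ x`. -/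
theorem sgPhi_cast_of_left_eq_zero {p : ℕ} (hp : Odd p) (q : ℕ) (x y : ℤ)
    (hx : ((x : ℤ) : ZMod q) = 0) :
    ((sgPhi p x y : ℤ) : ZMod q) = (y : ZMod q) ^ (p - 1) := by
  have hpos : 0 < p := hp.pos
  rw [sgPhi, Int.cast_sum, Finset.sum_eq_single_of_mem 0 (Finset.mem_range.mpr hpos)]
  · have heven : Even (p - 1) := by
      obtain ⟨k, hk⟩ := hp
      exact ⟨k, by omega⟩
    push_cast
    rw [pow_zero, one_mul, Nat.sub_zero, heven.neg_pow]
  · intro i _ hi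
    rw [Int.cast_mul, Int.cast_pow, hx, zero_pow hi, zero_mul]

/-- The heart of Sophie Germain's argument: the auxiliary prime `q` cannot divide `x`. -/
theorem sg_false_of_dvd {p q : ℕ} (hp : p.Prime) (hodd : Odd p) (hq : q.Prime)
    (h1 : ∀ x y z : ZMod q, x ^ p + y ^ p + z ^ p = 0 → x = 0 ∨ y = 0 ∨ z = 0)
    (h2 : ∀ t : ZMod q, t ^ p ≠ (p : ZMod q))
    {x y z : ℤ} (hxy : IsCoprime x y) (hxz : IsCoprime x z) (hyz : IsCoprime y z)
    (h : x ^ p + y ^ p + z ^ p = 0)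
    (hpx : ¬ (p : ℤ) ∣ x) (hpy : ¬ (p : ℤ) ∣ y) (hpz : ¬ (p : ℤ) ∣ z)
    (hqx : (q : ℤ) ∣ x) : False := by
  have : Fact q.Prime := ⟨hq⟩
  have hqq : Prime (q : ℤ) := Nat.prime_iff_prime_int.mp hq
  obtain ⟨⟨a, ha⟩, ⟨α, hα⟩⟩ := exists_pow_eq hp hodd hyz h hpx
  obtain ⟨⟨b, hb⟩, -⟩ := exists_pow_eq hp hodd (x := y) (y := z) (z := x) hxz.symm
    (by linarith) hpy
  obtain ⟨⟨c, hc⟩, ⟨γ, hγ⟩⟩ := exists_pow_eq hp hodd (x := z) (y := x) (z := y) hxy
    (by linarith) hpz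
  have hx0 : ((x : ℤ) : ZMod q) = 0 := (ZMod.intCast_zmod_eq_zero_iff_dvd x q).2 hqx
  -- `q ∤ y`
  have hy0 : ((y : ℤ) : ZMod q) ≠ 0 := by
    intro hy
    have hqy : (q : ℤ) ∣ y := (ZMod.intCast_zmod_eq_zero_iff_dvd y q).1 hy
    exact hqq.not_isUnit (hxy.isUnit_of_dvd' hqx hqy)
  have hz0 : ((z : ℤ) : ZMod q) ≠ 0 := by
    intro hz
    have hqz : (q : ℤ) ∣ z := (ZMod.intCast_zmod_eq_zero_iff_dvd z q).1 hz
    exact hqq.not_isUnit (hxz.isUnit_of_dvd' hqx hqz)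
  -- the congruence `b^p + c^p + (-a)^p ≡ 2x ≡ 0`
  have hsum : (b : ZMod q) ^ p + (c : ZMod q) ^ p + ((-a : ℤ) : ZMod q) ^ p = 0 := by
    have e : b ^ p + c ^ p + (-a) ^ p = 2 * x := by
      rw [hodd.neg_pow, ← ha, ← hb, ← hc]; ring
    have := congrArg (Int.cast : ℤ → ZMod q) e
    push_cast at this
    rw [hx0, mul_zero] at this
    push_cast
    exact this
  rcases h1 _ _ _ hsum with hb0 | hc0 | ha0
  · -- q ∣ b, so q ∣ z + x, so q ∣ z
    apply hz0
    have : ((z + x : ℤ) : ZMod q) = 0 := by rw [hb]; push_cast; rw [hb0, zero_pow hp.ne_zero]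
    push_cast at this
    rwa [hx0, add_zero] at this
  · apply hy0
    have : ((x + y : ℤ) : ZMod q) = 0 := by rw [hc]; push_cast; rw [hc0, zero_pow hp.ne_zero]
    push_cast at this
    rwa [hx0, zero_add] at this
  · -- q ∣ a, so y ≡ -z, so α^p ≡ p y^(p-1) and γ^p ≡ y^(p-1)
    have ha0' : (a : ZMod q) = 0 := by
      have : -(a : ZMod q) = 0 := by exact_mod_cast ha0
      exact neg_eq_zero.mp this
    have hyz0 : ((y + z : ℤ) : ZMod q) = 0 := by
      rw [ha]; push_cast; rw [ha0', zero_pow hp.ne_zero]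
    have e1 := sgPhi_cast_of_add_eq_zero p q y z hyz0
    have e2 := sgPhi_cast_of_left_eq_zero hodd q x y hx0
    rw [hα] at e1
    rw [hγ] at e2
    push_cast at e1 e2
    have hne : (y : ZMod q) ^ (p - 1) ≠ 0 := pow_ne_zero _ hy0
    have hγ0 : (γ : ZMod q) ≠ 0 := by
      intro h0
      rw [h0, zero_pow hp.ne_zero] at e2
      exact hne e2.symm
    apply h2 ((α : ZMod q) / (γ : ZMod q))
    rw [div_pow, e1, e2, mul_div_assoc, div_self hne, mul_one]

/-- **Sophie Germain's theorem** (in Legendre's general form): if `q` is an auxiliary prime such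
that `x^p + y^p + z^p ≡ 0 (mod q)` forces `q ∣ xyz`, and `p` is not a `p`-th power modulo `q`, then
Case I of Fermat's Last Theorem holds for the odd prime exponent `p`. -/
theorem sophie_germain {p q : ℕ} (hp : p.Prime) (hp2 : p ≠ 2) (hq : q.Prime)
    (h1 : ∀ x y z : ZMod q, x ^ p + y ^ p + z ^ p = 0 → x = 0 ∨ y = 0 ∨ z = 0)
    (h2 : ∀ t : ZMod q, t ^ p ≠ (p : ZMod q))
    {x y z : ℤ} (hxy : IsCoprime x y) (hxz : IsCoprime x z) (hyz : IsCoprime y z)
    (h : x ^ p + y ^ p + z ^ p = 0) : (p : ℤ) ∣ x * y * z := by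
  by_contra hnd
  have hodd : Odd p := hp.odd_of_ne_two hp2
  have hpx : ¬ (p : ℤ) ∣ x := fun hd => hnd ((hd.mul_right y).mul_right z)
  have hpy : ¬ (p : ℤ) ∣ y := fun hd => hnd ((hd.mul_left x).mul_right z)
  have hpz : ¬ (p : ℤ) ∣ z := fun hd => hnd (hd.mul_left (x * y))
  have : Fact q.Prime := ⟨hq⟩
  have hmod : (x : ZMod q) ^ p + (y : ZMod q) ^ p + (z : ZMod q) ^ p = 0 := by
    have := congrArg (Int.cast : ℤ → ZMod q) h
    push_cast at this
    exact this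
  rcases h1 _ _ _ hmod with hx | hy | hz
  · exact sg_false_of_dvd hp hodd hq h1 h2 hxy hxz hyz h hpx hpy hpz
      ((ZMod.intCast_zmod_eq_zero_iff_dvd x q).1 hx)
  · exact sg_false_of_dvd hp hodd hq h1 h2 (x := y) (y := z) (z := x) hyz hxy.symm hxz.symm
      (by linarith) hpy hpz hpx ((ZMod.intCast_zmod_eq_zero_iff_dvd y q).1 hy)
  · exact sg_false_of_dvd hp hodd hq h1 h2 (x := z) (y := x) (z := y) hxz.symm hyz.symm hxy
      (by linarith) hpz hpx hpy ((ZMod.intCast_zmod_eq_zero_iff_dvd z q).1 hz)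


/-- Sophie Germain's theorem in the form `a^p + b^p = c^p`. -/
theorem sophie_germain' {p q : ℕ} (hp : p.Prime) (hp2 : p ≠ 2) (hq : q.Prime)
    (h1 : ∀ x y z : ZMod q, x ^ p + y ^ p + z ^ p = 0 → x = 0 ∨ y = 0 ∨ z = 0)
    (h2 : ∀ t : ZMod q, t ^ p ≠ (p : ZMod q))
    {a b c : ℤ} (hab : IsCoprime a b) (h : a ^ p + b ^ p = c ^ p) : (p : ℤ) ∣ a * b * c := by
  have hodd : Odd p := hp.odd_of_ne_two hp2
  have hpos : 0 < p := hp.pos
  -- coprimality of the other two pairs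
  have hac : IsCoprime a c := by
    have h3 : IsCoprime a (c ^ p) := by
      have h4 : IsCoprime a (b ^ p + a * a ^ (p - 1)) := (hab.pow_right).add_mul_left_right _
      have h5 : a * a ^ (p - 1) = a ^ p := by
        rw [← pow_succ']; congr 1; omega
      rw [h5, add_comm, h] at h4
      exact h4
    exact (IsCoprime.pow_right_iff hpos).mp h3
  have hbc : IsCoprime b c := by
    have h3 : IsCoprime b (c ^ p) := by
      have h4 : IsCoprime b (a ^ p + b * b ^ (p - 1)) := (hab.symm.pow_right).add_mul_left_right _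
      have h5 : b * b ^ (p - 1) = b ^ p := by
        rw [← pow_succ']; congr 1; omega
      rw [h5, h] at h4
      exact h4
    exact (IsCoprime.pow_right_iff hpos).mp h3
  have key := sophie_germain hp hp2 hq h1 h2 (x := a) (y := b) (z := -c) hab hac.neg_right
    hbc.neg_right (by rw [hodd.neg_pow]; linarith)
  rw [mul_neg, dvd_neg] at key
  exact key

/-! ### The auxiliary primes for `p = 5, 7, 11, 13` -/

theorem sg_h1_5 : ∀ x y z : ZMod 11, x ^ 5 + y ^ 5 + z ^ 5 = 0 → x = 0 ∨ y = 0 ∨ z = 0 := by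
  have hpow : ∀ t : ZMod 11, t ≠ 0 → t ^ 5 = 1 ∨ t ^ 5 = -1 := by decide
  intro x y z h
  by_contra hne
  push Not at hne
  obtain ⟨hx, hy, hz⟩ := hne
  rcases hpow x hx with ex | ex <;> rcases hpow y hy with ey | ey <;>
    rcases hpow z hz with ez | ez <;> rw [ex, ey, ez] at h <;> revert h <;> decide

theorem sg_h2_5 : ∀ t : ZMod 11, t ^ 5 ≠ ((5 : ℕ) : ZMod 11) := by decide

theorem sg_h1_7 : ∀ x y z : ZMod 29, x ^ 7 + y ^ 7 + z ^ 7 = 0 → x = 0 ∨ y = 0 ∨ z = 0 := by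
  have hpow : ∀ t : ZMod 29, t ≠ 0 → t ^ 7 = 1 ∨ t ^ 7 = -1 ∨ t ^ 7 = 12 ∨ t ^ 7 = -12 := by
    decide
  intro x y z h
  by_contra hne
  push Not at hne
  obtain ⟨hx, hy, hz⟩ := hne
  rcases hpow x hx with ex | ex | ex | ex <;> rcases hpow y hy with ey | ey | ey | ey <;>
    rcases hpow z hz with ez | ez | ez | ez <;> rw [ex, ey, ez] at h <;> revert h <;> decide

theorem sg_h2_7 : ∀ t : ZMod 29, t ^ 7 ≠ ((7 : ℕ) : ZMod 29) := by decide

theorem sg_h1_11 : ∀ x y z : ZMod 23, x ^ 11 + y ^ 11 + z ^ 11 = 0 → x = 0 ∨ y = 0 ∨ z = 0 := by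
  have hpow : ∀ t : ZMod 23, t ≠ 0 → t ^ 11 = 1 ∨ t ^ 11 = -1 := by decide
  intro x y z h
  by_contra hne
  push Not at hne
  obtain ⟨hx, hy, hz⟩ := hne
  rcases hpow x hx with ex | ex <;> rcases hpow y hy with ey | ey <;>
    rcases hpow z hz with ez | ez <;> rw [ex, ey, ez] at h <;> revert h <;> decide

theorem sg_h2_11 : ∀ t : ZMod 23, t ^ 11 ≠ ((11 : ℕ) : ZMod 23) := by decide

theorem sg_h1_13 : ∀ x y z : ZMod 53, x ^ 13 + y ^ 13 + z ^ 13 = 0 → x = 0 ∨ y = 0 ∨ z = 0 := by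
  have hpow : ∀ t : ZMod 53, t ≠ 0 → t ^ 13 = 1 ∨ t ^ 13 = -1 ∨ t ^ 13 = 23 ∨ t ^ 13 = -23 := by
    decide
  intro x y z h
  by_contra hne
  push Not at hne
  obtain ⟨hx, hy, hz⟩ := hne
  rcases hpow x hx with ex | ex | ex | ex <;> rcases hpow y hy with ey | ey | ey | ey <;>
    rcases hpow z hz with ez | ez | ez | ez <;> rw [ex, ey, ez] at h <;> revert h <;> decide

theorem sg_h2_13 : ∀ t : ZMod 53, t ^ 13 ≠ ((13 : ℕ) : ZMod 53) := by decide

/-- Case I of Fermat's Last Theorem for `p = 5`. -/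
theorem caseI_5 {a b c : ℤ} (hab : IsCoprime a b) (h : a ^ 5 + b ^ 5 = c ^ 5) :
    (5 : ℤ) ∣ a * b * c :=
  sophie_germain' (p := 5) (q := 11) (by norm_num) (by norm_num) (by norm_num)
    sg_h1_5 sg_h2_5 hab h

/-- Case I of Fermat's Last Theorem for `p = 7`. -/
theorem caseI_7 {a b c : ℤ} (hab : IsCoprime a b) (h : a ^ 7 + b ^ 7 = c ^ 7) :
    (7 : ℤ) ∣ a * b * c :=
  sophie_germain' (p := 7) (q := 29) (by norm_num) (by norm_num) (by norm_num)
    sg_h1_7 sg_h2_7 hab h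

/-- Case I of Fermat's Last Theorem for `p = 11`. -/
theorem caseI_11 {a b c : ℤ} (hab : IsCoprime a b) (h : a ^ 11 + b ^ 11 = c ^ 11) :
    (11 : ℤ) ∣ a * b * c :=
  sophie_germain' (p := 11) (q := 23) (by norm_num) (by norm_num) (by norm_num)
    sg_h1_11 sg_h2_11 hab h

/-- Case I of Fermat's Last Theorem for `p = 13`. -/
theorem caseI_13 {a b c : ℤ} (hab : IsCoprime a b) (h : a ^ 13 + b ^ 13 = c ^ 13) :
    (13 : ℤ) ∣ a * b * c :=
  sophie_germain' (p := 13) (q := 53) (by norm_num) (by norm_num) (by norm_num)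
    sg_h1_13 sg_h2_13 hab h

/-- Case I for all four exponents at once. -/
theorem caseI_of_mem {p : ℕ} (hp : p = 5 ∨ p = 7 ∨ p = 11 ∨ p = 13) {a b c : ℤ}
    (hab : IsCoprime a b) (h : a ^ p + b ^ p = c ^ p) : (p : ℤ) ∣ a * b * c := by
  rcases hp with rfl | rfl | rfl | rfl
  · exact caseI_5 hab h
  · exact caseI_7 hab h
  · exact caseI_11 hab h
  · exact caseI_13 hab h

end Fermat.Agent.S11
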