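import Mathlib
import Fermat.Prelude.Def_FLTPrelim_FreyPackage

/-!
# S10/S11 glue: a Frey package with exponent `p` is impossible once Fermat's Last Theorem for
the exponent `p` is known in the "case I / case II" form.

* `caseI`  : every coprime solution of `a ^ p + b ^ p = c ^ p` has `p ∣ a * b * c`
  (Sophie Germain);
* `caseII` : there is no solution with `c ≠ 0`, `a, b` coprime and `p ∣ c` (Kummer descent).
-/

set_option autoImplicit false

namespace Fermat.Agent.S11

/-- The "case I" statement for the exponent `p`. -/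
def CaseI (p : ℕ) : Prop :=
  ∀ a b c : ℤ, IsCoprime a b → a ^ p + b ^ p = c ^ p → (p : ℤ) ∣ a * b * c

/-- The "case II" statement for the exponent `p`. -/
def CaseII (p : ℕ) : Prop :=
  ∀ a b c : ℤ, c ≠ 0 → IsCoprime a b → (p : ℤ) ∣ c → a ^ p + b ^ p = c ^ p → False

theorem isCoprime_of_gcd_eq_one {a b : ℤ} (h : gcd a b = 1) : IsCoprime a b := by
  rw [Int.isCoprime_iff_gcd_eq_one]
  have h' : ((Int.gcd a b : ℕ) : ℤ) = 1 := h
  exact_mod_cast h'

/-- No Frey package has an exponent `p` for which both cases of Fermat's Last Theorem hold. -/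
theorem freyPackage_false_of_caseI_caseII (P : FreyPackage) (hI : CaseI P.p) (hII : CaseII P.p) :
    False := by
  have hp : Nat.Prime P.p := P.pp
  have hodd : Odd P.p := P.hp_odd
  have hab : IsCoprime P.a P.b := isCoprime_of_gcd_eq_one P.hgcdab
  have hac : IsCoprime P.a P.c := isCoprime_of_gcd_eq_one P.hgcdac
  have hbc : IsCoprime P.b P.c := isCoprime_of_gcd_eq_one P.hgcdbc
  have hdvd : (P.p : ℤ) ∣ P.a * P.b * P.c := hI P.a P.b P.c hab P.hFLT
  have hpprime : Prime (P.p : ℤ) := Nat.prime_iff_prime_int.mp hp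
  rcases hpprime.dvd_or_dvd hdvd with h | hc
  · rcases hpprime.dvd_or_dvd h with ha | hb
    · -- p ∣ a :  c ^ p + (-b) ^ p = a ^ p
      refine hII P.c (-P.b) P.a P.ha0 hbc.symm.neg_right ha ?_
      rw [hodd.neg_pow, ← P.hFLT]; ring
    · -- p ∣ b :  c ^ p + (-a) ^ p = b ^ p
      refine hII P.c (-P.a) P.b P.hb0 hac.symm.neg_right hb ?_
      rw [hodd.neg_pow, ← P.hFLT]; ring
  · exact hII P.a P.b P.c P.hc0 hab hc P.hFLT

end Fermat.Agent.S11
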