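import Fermat.Agent.S11.SophieGermain
import Fermat.Agent.S11.Glue
import Fermat.Agent.Lib.FltSmall.Defs

/-!
# Case I for `p ∈ {5, 7, 11, 13}` in the two interface shapes used by the S10/S11 route

* `Fermat.Agent.S11.CaseI p` (coprime form, from `Glue.lean`);
* `Fermat.Agent.Lib.FltSmall.CaseI p` (no coprimality hypothesis, from `Lib/FltSmall/Defs.lean`).
-/

set_option autoImplicit false

namespace Fermat.Agent.S11

/-- Case I in the shape of `Glue.lean`. -/
theorem caseI_glue {p : ℕ} (hp : p = 5 ∨ p = 7 ∨ p = 11 ∨ p = 13) : CaseI p :=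
  fun _ _ _ hab h => caseI_of_mem hp hab h

theorem caseI_glue_5 : CaseI 5 := caseI_glue (Or.inl rfl)
theorem caseI_glue_7 : CaseI 7 := caseI_glue (Or.inr (Or.inl rfl))
theorem caseI_glue_11 : CaseI 11 := caseI_glue (Or.inr (Or.inr (Or.inl rfl)))
theorem caseI_glue_13 : CaseI 13 := caseI_glue (Or.inr (Or.inr (Or.inr rfl)))

/-- Removing the coprimality hypothesis: if every coprime solution has `p ∣ abc`, then every
solution has `p ∣ abc`. -/
theorem dvd_of_coprime_case {p : ℕ} (hp0 : p ≠ 0)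
    (H : ∀ a b c : ℤ, IsCoprime a b → a ^ p + b ^ p = c ^ p → (p : ℤ) ∣ a * b * c)
    (a b c : ℤ) (h : a ^ p + b ^ p = c ^ p) : (p : ℤ) ∣ a * b * c := by
  by_cases hab0 : a = 0 ∧ b = 0
  · rw [hab0.1, zero_mul, zero_mul]; exact dvd_zero _
  -- divide by the gcd
  have hg0 : Int.gcd a b ≠ 0 := fun h0 => hab0 (Int.gcd_eq_zero_iff.mp h0)
  obtain ⟨g, a', b', hgpos, hgcd, ha', hb'⟩ := Int.exists_gcd_one' (Nat.pos_of_ne_zero hg0)
  have hcop : IsCoprime a' b' := Int.isCoprime_iff_gcd_eq_one.mpr hgcd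
  have hd0 : (g : ℤ) ≠ 0 := by exact_mod_cast hgpos.ne'
  generalize (g : ℤ) = d at hd0 ha' hb'
  -- d ^ p ∣ c ^ p, hence d ∣ c
  have hdc : d ∣ c := by
    have : d ^ p ∣ c ^ p := by
      rw [← h, ha', hb', mul_pow, mul_pow, ← add_mul]
      exact dvd_mul_left _ _
    exact (Int.pow_dvd_pow_iff hp0).mp this
  obtain ⟨c', hc'⟩ := hdc
  have h' : a' ^ p + b' ^ p = c' ^ p := by
    have e : d ^ p * (a' ^ p + b' ^ p) = d ^ p * c' ^ p := by
      rw [← mul_pow d c', ← hc', ← h, ha', hb']; ring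
    exact mul_left_cancel₀ (pow_ne_zero p hd0) e
  have key := H a' b' c' hcop h'
  rw [ha', hb', hc']
  have e : a' * d * (b' * d) * (d * c') = (a' * b' * c') * (d * d * d) := by ring
  rw [e]
  exact Dvd.dvd.mul_right key _

/-- Case I in the shape of `Lib/FltSmall/Defs.lean` (no coprimality hypothesis). -/
theorem caseI_fltSmall {p : ℕ} (hp : p = 5 ∨ p = 7 ∨ p = 11 ∨ p = 13) :
    Fermat.Agent.Lib.FltSmall.CaseI p := by
  intro a b c hnd h
  have hp0 : p ≠ 0 := by rcases hp with rfl | rfl | rfl | rfl <;> norm_num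
  exact hnd (dvd_of_coprime_case hp0 (fun _ _ _ hab h => caseI_of_mem hp hab h) a b c h)

end Fermat.Agent.S11
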