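import Mathlib

/-!
# `ℤ[ζ₁₁]` is a principal ideal domain  (S11, piece K1)

Minkowski bound `< 60`; the only primes `p ≤ 59` with `p ^ f ≤ 59` are `11` (ramified, `(1-ζ)`)
and `23` (split; the prime `(23, ζ - 2)` is generated by `ζ^4 + ζ^3 - 1`).
-/

namespace Fermat.Agent.S11

open NumberField Polynomial InfinitePlace Nat Real Ideal Module

section
variable (K : Type*) [Field K] [NumberField K] [IsCyclotomicExtension {11} ℚ K]

instance fact_prime_eleven : Fact (Nat.Prime 11) := ⟨by norm_num⟩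
instance fact_prime_twentythree : Fact (Nat.Prime 23) := ⟨by norm_num⟩

theorem minkowski_bound_eleven :
    ⌊(4 / π) ^ nrComplexPlaces K *
      ((finrank ℚ K)! / (finrank ℚ K) ^ (finrank ℚ K) * √|discr K|)⌋₊ ≤ 59 := by
  have h11 : Nat.Prime 11 := by norm_num
  rw [IsCyclotomicExtension.Rat.discr_prime 11 K, IsCyclotomicExtension.finrank (n := 11) K
    (cyclotomic.irreducible_rat (by simp)),
    IsCyclotomicExtension.Rat.nrComplexPlaces_eq_totient_div_two 11,
    totient_prime h11]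
  have hfac : (10 : ℕ)! = 3628800 := by decide
  norm_num [hfac]
  have hsqrt : √2357947691 < 48559 := by
    rw [Real.sqrt_lt' (by norm_num)]
    norm_num
  have hpi : (4 / π) < 4 / 3.14 := by
    have := Real.pi_gt_d2
    gcongr
  have hpi0 : 0 < 4 / π := by positivity
  have h5 : (4 / π) ^ 5 < (4 / 3.14) ^ 5 := by gcongr
  have hs0 : 0 ≤ √2357947691 := Real.sqrt_nonneg _
  have hlt : (4 / π) ^ 5 * (567 / 1562500 * √2357947691) < 60 := by
    calc (4 / π) ^ 5 * (567 / 1562500 * √2357947691)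
        ≤ (4 / 3.14) ^ 5 * (567 / 1562500 * 48559) := by gcongr
      _ < 60 := by norm_num
  have h0 : 0 ≤ (4 / π) ^ 5 * (567 / 1562500 * √2357947691) := by positivity
  exact Nat.lt_succ_iff.mp ((Nat.floor_lt h0).mpr (by exact_mod_cast hlt))


theorem exists_inert (p : ℕ) [Fact p.Prime] (hp : ¬ p ∣ 11) (hp0 : (p : ZMod 11) ≠ 0) (m : ℕ)
    (hm : ∀ k < m, 0 < k → (p : ZMod 11) ^ k ≠ 1) (hpm : 59 < p ^ m) :
    ∃ P ∈ primesOver (span {(p : ℤ)}) (𝓞 K),
      ⌊(4 / π) ^ nrComplexPlaces K *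
        ((finrank ℚ K)! / (finrank ℚ K) ^ (finrank ℚ K) * √|discr K|)⌋₊ < p ^ P.inertiaDeg ℤ ∨
      Submodule.IsPrincipal P := by
  obtain ⟨⟨P, hP1, hP2⟩⟩ := (span {(p : ℤ)}).nonempty_primesOver (S := 𝓞 K)
  refine ⟨P, ⟨hP1, hP2⟩, Or.inl ?_⟩
  rw [IsCyclotomicExtension.Rat.inertiaDeg_eq_of_not_dvd p K P hp]
  have h1 := pow_orderOf_eq_one (p : ZMod 11)
  have hpos : 0 < orderOf (p : ZMod 11) := by
    rw [orderOf_pos_iff, isOfFinOrder_iff_pow_eq_one]
    exact ⟨10, by norm_num, ZMod.pow_card_sub_one_eq_one hp0⟩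
  have hle : m ≤ orderOf (p : ZMod 11) := by
    by_contra h
    push Not at h
    exact hm _ h hpos h1
  calc _ ≤ 59 := minkowski_bound_eleven K
    _ < p ^ m := hpm
    _ ≤ p ^ orderOf (p : ZMod 11) := Nat.pow_le_pow_right (Fact.out : p.Prime).pos hle

theorem exists_principal_eleven :
    ∃ P ∈ primesOver (span {((11 : ℕ) : ℤ)}) (𝓞 K),
      ⌊(4 / π) ^ nrComplexPlaces K *
        ((finrank ℚ K)! / (finrank ℚ K) ^ (finrank ℚ K) * √|discr K|)⌋₊ < 11 ^ P.inertiaDeg ℤ ∨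
      Submodule.IsPrincipal P := by
  have hζ := IsCyclotomicExtension.zeta_spec 11 ℚ K
  refine ⟨span {hζ.toInteger - 1}, ⟨IsCyclotomicExtension.Rat.isPrime_span_zeta_sub_one' 11 hζ, ?_⟩,
    Or.inr ⟨⟨_, rfl⟩⟩⟩
  have : IsCyclotomicExtension {11 ^ (0 + 1)} ℚ K := by
    simpa using (inferInstance : IsCyclotomicExtension {11} ℚ K)
  have hζ' : IsPrimitiveRoot (IsCyclotomicExtension.zeta 11 ℚ K) (11 ^ (0 + 1)) := by
    simp only [zero_add, pow_one]; exact hζ
  exact IsCyclotomicExtension.Rat.liesOver_span_zeta_sub_one 11 0 hζ'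


theorem exists_principal_twentythree :
    ∃ P ∈ primesOver (span {((23 : ℕ) : ℤ)}) (𝓞 K), Submodule.IsPrincipal P := by
  have hζ := IsCyclotomicExtension.zeta_spec 11 ℚ K
  set ζ : 𝓞 K := hζ.toInteger with hζdef
  have hprim : IsPrimitiveRoot ζ 11 := hζ.toInteger_isPrimitiveRoot
  have hΦ : 1 + ζ + ζ ^ 2 + ζ ^ 3 + ζ ^ 4 + ζ ^ 5 + ζ ^ 6 + ζ ^ 7 + ζ ^ 8 + ζ ^ 9 + ζ ^ 10 = 0 := by
    have := hprim.geom_sum_eq_zero (by norm_num)
    simpa [Finset.sum_range_succ] using this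
  let pb := hζ.integralPowerBasis
  have hgen : pb.gen = ζ := hζ.integralPowerBasis_gen
  have hy : aeval (2 : ZMod 23) (minpoly ℤ pb.gen) = 0 := by
    have hcoe : ((hζ.toInteger : 𝓞 K) : K) = IsCyclotomicExtension.zeta 11 ℚ K := rfl
    rw [hgen, hζdef, ← RingOfIntegers.minpoly_coe, hcoe,
      ← cyclotomic_eq_minpoly hζ (by norm_num), cyclotomic_prime]
    simp only [Finset.sum_range_succ, Finset.sum_range_zero, map_add, map_pow, aeval_X, zero_add]
    decide
  let f23 : 𝓞 K →ₐ[ℤ] ZMod 23 := pb.lift 2 hy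
  have hf23ζ : f23 ζ = 2 := by
    rw [← hgen]; exact pb.lift_gen 2 hy
  set α : 𝓞 K := ζ ^ 4 + ζ ^ 3 - 1 with hα
  set β : 𝓞 K := 1 + 13 * ζ - 4 * ζ ^ 2 - ζ ^ 3 + 12 * ζ ^ 4 + 7 * ζ ^ 5 - 7 * ζ ^ 6 + 9 * ζ ^ 7
    + 17 * ζ ^ 8 - 2 * ζ ^ 9 with hβ
  set γ : 𝓞 K := -ζ + ζ ^ 2 - ζ ^ 4 + ζ ^ 6 - ζ ^ 7 - ζ ^ 8 + ζ ^ 9 with hγ
  have hαβ : α * β = 23 := by
    rw [hα, hβ]
    linear_combination (-24 + 11 * ζ + 17 * ζ ^ 2 - 2 * ζ ^ 3) * hΦ
  have hαγ : α * γ = ζ - 2 := by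
    rw [hα, hγ]
    linear_combination (2 - 2 * ζ - ζ ^ 2 + ζ ^ 3) * hΦ
  have hf23α : f23 α = 0 := by
    rw [hα]
    simp only [map_add, map_sub, map_pow, map_one, hf23ζ]
    decide
  have hker : RingHom.ker (f23 : 𝓞 K →+* ZMod 23) = span {α} := by
    apply le_antisymm
    · intro x hx
      rw [RingHom.mem_ker] at hx
      obtain ⟨f, rfl⟩ : ∃ f : ℤ[X], aeval ζ f = x := by
        obtain ⟨f, hf⟩ := pb.exists_eq_aeval' x
        exact ⟨f, by rw [← hgen]; exact hf.symm⟩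
      obtain ⟨g, c, hdecomp⟩ : ∃ (g : ℤ[X]) (c : ℤ), f = (X - C 2) * g + C c := by
        refine ⟨f /ₘ (X - C 2), f.eval 2, ?_⟩
        have := modByMonic_add_div f (X - C (2 : ℤ))
        rw [modByMonic_X_sub_C_eq_C_eval] at this
        conv_lhs => rw [← this]
        ring
      subst hdecomp
      have hval : aeval ζ ((X - C 2) * g + C c) = (ζ - 2) * aeval ζ g + (c : 𝓞 K) := by
        simp only [map_add, map_mul, map_sub, aeval_X, aeval_C]
        simp
      have hf23f : (f23 : 𝓞 K →+* ZMod 23) (aeval ζ ((X - C 2) * g + C c)) = (c : ZMod 23) := by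
        have h2 : (f23 : 𝓞 K →+* ZMod 23) (aeval ζ ((X - C 2) * g + C c)) =
          f23 (aeval ζ ((X - C 2) * g + C c)) := rfl
        rw [h2, hval]
        simp only [map_add, map_mul, map_sub, hf23ζ, map_intCast, map_ofNat, sub_self, zero_mul,
          zero_add]
      rw [hf23f, ZMod.intCast_zmod_eq_zero_iff_dvd] at hx
      obtain ⟨k, hk⟩ := hx
      rw [mem_span_singleton]
      refine ⟨γ * aeval ζ g + β * k, ?_⟩
      rw [hval, hk, ← hαγ]
      push_cast
      linear_combination (k : 𝓞 K) * hαβ.symm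
    · rw [span_le, Set.singleton_subset_iff]
      exact hf23α
  refine ⟨span {α}, ⟨?_, ?_⟩, ⟨⟨α, rfl⟩⟩⟩
  · rw [← hker]; exact RingHom.ker_isPrime _
  · have hprime : (span {α}).IsPrime := by rw [← hker]; exact RingHom.ker_isPrime _
    rw [liesOver_iff]
    refine IsMaximal.eq_of_le (Int.ideal_span_isMaximal_of_prime 23) IsPrime.ne_top' ?_
    rw [span_singleton_le_iff_mem, under_def, mem_comap, algebraMap_int_eq, eq_intCast]
    rw [mem_span_singleton]
    exact ⟨β, by rw [hαβ]; simp⟩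


/-- The ring of integers of the `11`-th cyclotomic field is a PID. -/
theorem eleven_pid : IsPrincipalIdealRing (𝓞 K) := by
  have : IsGalois ℚ K := IsCyclotomicExtension.isGalois {11} ℚ K
  apply RingOfIntegers.isPrincipalIdealRing_of_isPrincipal_of_lt_or_isPrincipal_of_mem_primesOver_of_mem_Icc
  intro p hp hpp
  have hp59 : p ≤ 59 := (Finset.mem_Icc.mp hp).2.trans (minkowski_bound_eleven K)
  have hp1 := (Finset.mem_Icc.mp hp).1
  clear hp
  have : Fact p.Prime := ⟨hpp⟩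
  interval_cases p <;> first
    | (exfalso; revert hpp; norm_num; done)
    | exact exists_principal_eleven K
    | (obtain ⟨P, hP, hP'⟩ := exists_principal_twentythree K; exact ⟨P, hP, Or.inr hP'⟩)
    | exact exists_inert K _ (by decide) (by decide) 2 (by decide) (by decide)
    | exact exists_inert K _ (by decide) (by decide) 3 (by decide) (by decide)
    | exact exists_inert K _ (by decide) (by decide) 4 (by decide) (by decide)
    | exact exists_inert K _ (by decide) (by decide) 6 (by decide) (by decide)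

end
end Fermat.Agent.S11

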