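import Fermat.Statements.S11
import Fermat.Statements.S10
import Fermat.Agent.S11.Glue
import Fermat.Agent.S11.CaseIBridge
import Fermat.Agent.S11.CaseIICyclo
import Fermat.Agent.S11.PID11
import Fermat.Agent.Lib.FltSmall.PID7

/-!
# S10 / S11 assembly: everything except Kummer's lemma (and the PID property for `p = 13`)

`Fermat.Agent.S11.Assembly.s11_of_kummer` and `s10_of_kummer` derive the frozen statements S11
and S10 from Kummer's lemma `KummerLemma (𝓞 (CyclotomicField p ℚ)) p` for the relevant primes
(and, for `p = 13`, principality of `𝓞 (CyclotomicField 13 ℚ)`).  All other ingredients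
(Sophie Germain's case I, the case II descent, PID for `5, 7, 11`, the Frey package glue) are
already proved.

Warning: `IsCyclotomicExtension {p} ℚ (CyclotomicField p ℚ)` is NOT found by instance search
when the `ℚ`-algebra structure is the canonical `DivisionRing.toRatAlgebra` (the one every
theorem about `[NumberField K] [IsCyclotomicExtension {p} ℚ K]` uses); it only holds up to
default-transparency unfolding.  `isCyclotomicExtension_rat` below is that instance.
-/

set_option autoImplicit false

open NumberField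
open WeierstrassCurve WeierstrassCurve.Affine WeierstrassCurve.Affine.Point
open FreyPackage

namespace Fermat.Agent.S11.Assembly

open Fermat.Agent.S11

/-- `CyclotomicField p ℚ` is a `p`-th cyclotomic extension of `ℚ` for the canonical
`ℚ`-algebra structure `DivisionRing.toRatAlgebra`. -/
theorem isCyclotomicExtension_rat (p : ℕ) [NeZero p] :
    IsCyclotomicExtension {p} ℚ (CyclotomicField p ℚ) :=
  CyclotomicField.isCyclotomicExtension p ℚ

/-- Case II for the exponent `p` from principality of `ℤ[ζ_p]` and Kummer's lemma. -/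
theorem caseII_of_pid_of_kummer (p : ℕ) [Fact p.Prime] (hp3 : 3 ≤ p)
    [IsPrincipalIdealRing (𝓞 (CyclotomicField p ℚ))]
    (KL : KummerLemma (𝓞 (CyclotomicField p ℚ)) p) : CaseII p := by
  have : NeZero p := ⟨(Fact.out : p.Prime).ne_zero⟩
  have := isCyclotomicExtension_rat p
  exact fun _ _ _ hc hab hpc h => caseII_int (CyclotomicField p ℚ) hp3 KL hab hc hpc h

/-- No Frey package with exponent `p ∈ {5, 7, 11, 13}` exists, given principality and Kummer's
lemma for `ℤ[ζ_p]`. -/
theorem freyPackage_false (P : FreyPackage) (p : ℕ) (hPp : P.p = p)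
    (hp : p = 5 ∨ p = 7 ∨ p = 11 ∨ p = 13)
    [IsPrincipalIdealRing (𝓞 (CyclotomicField p ℚ))]
    (KL : KummerLemma (𝓞 (CyclotomicField p ℚ)) p) : False := by
  subst hPp
  have : Fact P.p.Prime := ⟨P.pp⟩
  have hp3 : 3 ≤ P.p := by rcases hp with h | h | h | h <;> omega
  exact freyPackage_false_of_caseI_caseII P (caseI_glue hp)
    (caseII_of_pid_of_kummer P.p hp3 KL)

/-- `𝓞 (CyclotomicField 5 ℚ)` is a PID (Mathlib). -/
theorem pid_five : IsPrincipalIdealRing (𝓞 (CyclotomicField 5 ℚ)) :=
  have := isCyclotomicExtension_rat 5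
  IsCyclotomicExtension.Rat.five_pid (CyclotomicField 5 ℚ)

/-- `𝓞 (CyclotomicField 7 ℚ)` is a PID. -/
theorem pid_seven : IsPrincipalIdealRing (𝓞 (CyclotomicField 7 ℚ)) :=
  have := isCyclotomicExtension_rat 7
  Fermat.Agent.Lib.FltSmall.pid_seven (CyclotomicField 7 ℚ)

/-- `𝓞 (CyclotomicField 11 ℚ)` is a PID. -/
theorem pid_eleven : IsPrincipalIdealRing (𝓞 (CyclotomicField 11 ℚ)) :=
  have := isCyclotomicExtension_rat 11
  eleven_pid (CyclotomicField 11 ℚ)

/-- S11 from Kummer's lemma for `p = 11`. -/
theorem s11_of_kummer (KL : KummerLemma (𝓞 (CyclotomicField 11 ℚ)) 11)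
    (P : FreyPackage) (hp : P.p = 11) :
    ¬ HasGaloisStableCofixedLine (K := AlgebraicClosure ℚ) ℚ P.freyCurve P.p := by
  exfalso
  have := pid_eleven
  exact freyPackage_false P 11 hp (by norm_num) KL

/-- S10 from Kummer's lemma for `p = 5, 7, 13` and principality for `p = 13`. -/
theorem s10_of_kummer (KL5 : KummerLemma (𝓞 (CyclotomicField 5 ℚ)) 5)
    (KL7 : KummerLemma (𝓞 (CyclotomicField 7 ℚ)) 7)
    (KL13 : KummerLemma (𝓞 (CyclotomicField 13 ℚ)) 13)
    (pid13 : IsPrincipalIdealRing (𝓞 (CyclotomicField 13 ℚ)))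
    (P : FreyPackage) (hp : P.p = 5 ∨ P.p = 7 ∨ P.p = 13) :
    ¬ HasGaloisStableCofixedLine (K := AlgebraicClosure ℚ) ℚ P.freyCurve P.p := by
  exfalso
  have := pid_five
  have := pid_seven
  rcases hp with h | h | h
  · exact freyPackage_false P 5 h (by norm_num) KL5
  · exact freyPackage_false P 7 h (by norm_num) KL7
  · exact freyPackage_false P 13 h (by norm_num) KL13

end Fermat.Agent.S11.Assembly
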