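import Mathlib

/-!
# Case II of Fermat's Last Theorem for a regular prime with class number one (abstract descent)

We work in an abstract commutative domain `R` which is a PID, together with an element `ζ`
behaving like a primitive `p`-th root of unity in `ℤ[ζ_p]` (`KummerSetup`), and assuming
Kummer's lemma (`KL`).  We prove that the generalized Fermat equation
`α ^ p + β ^ p = ε * (ζ - 1) ^ (p * m) * γ ^ p` (`1 ≤ m`, `α`, `β` coprime, `ζ - 1 ∤ γ`)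
has no solution.
-/

set_option linter.unusedSectionVars false

namespace Fermat.Agent.S11

open Finset

/-- Abstract properties of `ℤ[ζ_p]` used in Kummer's descent (Case II). -/
structure KummerSetup (R : Type*) [CommRing R] (p : ℕ) (ζ : R) : Prop where
  prime : p.Prime
  three_le : 3 ≤ p
  zeta_pow : ζ ^ p = 1
  prod_eq : ∀ x y : R, x ^ p + y ^ p = ∏ a ∈ range p, (x + ζ ^ a * y)
  lam_prime : Prime (ζ - 1)
  assoc : Associated ((ζ - 1) ^ (p - 1)) (p : R)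
  unit_geom : ∀ k, 0 < k → k < p → IsUnit (∑ i ∈ range k, ζ ^ i)
  res : ∀ x : R, ∃ n : ℤ, (ζ - 1) ∣ x - n
  int_dvd : ∀ n : ℤ, (ζ - 1) ∣ (n : R) → (p : ℤ) ∣ n

/-- Kummer's lemma, as a hypothesis. -/
def KummerLemma (R : Type*) [CommRing R] (p : ℕ) : Prop :=
  ∀ u : Rˣ, (∃ n : ℤ, (p : R) ∣ (u : R) - n) → ∃ v : Rˣ, u = v ^ p

namespace KummerSetup

variable {R : Type*} [CommRing R] {p : ℕ} {ζ : R}

section Basic

variable (S : KummerSetup R p ζ)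
include S

lemma p_pos : 0 < p := S.prime.pos

lemma zeta_isUnit : IsUnit ζ :=
  IsUnit.of_pow_eq_one S.zeta_pow S.prime.ne_zero

lemma lam_dvd_p : (ζ - 1) ∣ (p : R) := by
  have h2 : 1 ≤ p - 1 := by have := S.three_le; omega
  exact (dvd_pow_self (ζ - 1) (by omega)).trans S.assoc.dvd

lemma p_dvd_lam_pow {k : ℕ} (hk : p - 1 ≤ k) : (p : R) ∣ (ζ - 1) ^ k :=
  S.assoc.symm.dvd.trans (pow_dvd_pow _ hk)

lemma lam_dvd_intCast_iff {n : ℤ} : (ζ - 1) ∣ (n : R) ↔ (p : ℤ) ∣ n := by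
  refine ⟨S.int_dvd n, fun ⟨k, hk⟩ => ?_⟩
  rw [hk]; push_cast
  exact Dvd.dvd.mul_right S.lam_dvd_p _

/-- `ζ ^ a - 1 = (ζ - 1) * ∑ i < a, ζ ^ i`. -/
lemma zeta_pow_sub_one (a : ℕ) : ζ ^ a - 1 = (ζ - 1) * ∑ i ∈ range a, ζ ^ i :=
  (mul_geom_sum ζ a).symm

lemma zeta_pow_eq (a : ℕ) : ζ ^ a = 1 + (ζ - 1) * ∑ i ∈ range a, ζ ^ i := by
  rw [← S.zeta_pow_sub_one a]; ring

/-- `∑ i < a, ζ ^ i ≡ a mod (ζ - 1)`. -/
lemma lam_dvd_geom_sub (a : ℕ) : (ζ - 1) ∣ (∑ i ∈ range a, ζ ^ i) - (a : R) := by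
  have : (∑ i ∈ range a, ζ ^ i) - (a : R) = ∑ i ∈ range a, (ζ ^ i - 1) := by
    simp [Finset.sum_sub_distrib]
  rw [this]
  refine Finset.dvd_sum fun i _ => ?_
  rw [S.zeta_pow_sub_one i]; exact dvd_mul_right _ _

lemma add_zeta_pow_mul (α β : R) (a : ℕ) :
    α + ζ ^ a * β = (α + β) + (ζ - 1) * ((∑ i ∈ range a, ζ ^ i) * β) := by
  rw [S.zeta_pow_eq a]; ring

/-- `ζ ^ a - ζ ^ b` is `(ζ - 1)` times a unit, for `b < a < p`. -/
lemma zeta_pow_sub_zeta_pow {a b : ℕ} (hab : b < a) (ha : a < p) :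
    ∃ u : R, IsUnit u ∧ ζ ^ a - ζ ^ b = (ζ - 1) * u := by
  refine ⟨ζ ^ b * ∑ i ∈ range (a - b), ζ ^ i,
    (S.zeta_isUnit.pow b).mul (S.unit_geom (a - b) (by omega) (by omega)), ?_⟩
  have : ζ ^ a = ζ ^ b * ζ ^ (a - b) := by rw [← pow_add]; congr 1; omega
  rw [this]
  have h := S.zeta_pow_sub_one (a - b)
  linear_combination ζ ^ b * h

/-- Frobenius: `ρ ^ p` is congruent to an integer mod `p`; if `ζ - 1 ∤ ρ` the integer is prime to `p`. -/
lemma exists_int_pow_congr (ρ : R) :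
    ∃ n : ℤ, (p : R) ∣ ρ ^ p - n ∧ ((ζ - 1) ∣ ρ ↔ (p : ℤ) ∣ n) := by
  obtain ⟨n, τ, hτ⟩ := S.res ρ
  refine ⟨n ^ p, ?_, ?_⟩
  · have hρ : ρ = (n : R) + (ζ - 1) * τ := by rw [← hτ]; ring
    obtain ⟨r, hr⟩ := exists_add_pow_prime_eq S.prime (n : R) ((ζ - 1) * τ)
    have h1 : (p : R) ∣ ((ζ - 1) * τ) ^ p := by
      rw [mul_pow]
      exact Dvd.dvd.mul_right (S.p_dvd_lam_pow (by omega)) _
    obtain ⟨c, hc⟩ := h1
    refine ⟨c + (n : R) * ((ζ - 1) * τ) * r, ?_⟩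
    rw [hρ, hr, hc]; push_cast; ring
  · constructor
    · intro h
      have hn : (ζ - 1) ∣ (n : R) := by
        have : (n : R) = ρ - (ζ - 1) * τ := by rw [← hτ]; ring
        rw [this]; exact dvd_sub h (dvd_mul_right _ _)
      exact Dvd.dvd.trans (S.int_dvd n hn) (dvd_pow_self n S.prime.ne_zero)
    · intro h
      have hn : (p : ℤ) ∣ n := Int.Prime.dvd_pow' S.prime h
      have hn' : (ζ - 1) ∣ (n : R) := S.lam_dvd_intCast_iff.mpr hn
      have : ρ = (n : R) + (ζ - 1) * τ := by rw [← hτ]; ring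
      rw [this]; exact dvd_add hn' (dvd_mul_right _ _)

end Basic

section Descent

variable [IsDomain R] [IsPrincipalIdealRing R] (S : KummerSetup R p ζ)
include S

/-- A solution of the generalized Fermat equation at level `m`. -/
def IsSol (_S : KummerSetup R p ζ) (m : ℕ) (α β γ : R) (ε : Rˣ) : Prop :=
  IsCoprime α β ∧ ¬ (ζ - 1) ∣ γ ∧ α ^ p + β ^ p = ε * (ζ - 1) ^ (p * m) * γ ^ p

lemma lam_ne_zero : (ζ - 1) ≠ 0 := S.lam_prime.ne_zero

lemma lam_not_dvd_of_unit {u : R} (hu : IsUnit u) : ¬ (ζ - 1) ∣ u := fun h =>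
  S.lam_prime.not_isUnit (isUnit_of_dvd_unit h hu)

/-- In a solution (with `1 ≤ m`) we have `ζ - 1 ∣ α + β`. -/
lemma IsSol.lam_dvd_add {m : ℕ} {α β γ : R} {ε : Rˣ} (h : S.IsSol m α β γ ε) (hm : 1 ≤ m) :
    (ζ - 1) ∣ α + β := by
  obtain ⟨_, _, H⟩ := h
  have h1 : (ζ - 1) ∣ ∏ a ∈ range p, (α + ζ ^ a * β) := by
    rw [← S.prod_eq, H]
    refine Dvd.dvd.mul_right (Dvd.dvd.mul_left (dvd_pow_self _ ?_) _) _
    have := S.p_pos
    positivity
  obtain ⟨a, _, ha⟩ := S.lam_prime.exists_mem_finset_dvd h1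
  rw [S.add_zeta_pow_mul α β a] at ha
  exact (dvd_add_left (dvd_mul_right _ _)).mp ha

lemma IsSol.lam_not_dvd_right {m : ℕ} {α β γ : R} {ε : Rˣ} (h : S.IsSol m α β γ ε)
    (hm : 1 ≤ m) : ¬ (ζ - 1) ∣ β := by
  intro hβ
  have hαβ := h.lam_dvd_add S hm
  have hα : (ζ - 1) ∣ α := (dvd_add_left hβ).mp hαβ
  exact S.lam_prime.not_isUnit (h.1.isUnit_of_dvd' hα hβ)

/-- Multiplying `β` by a power of `ζ` gives again a solution. -/
lemma IsSol.mul_zeta_pow {m : ℕ} {α β γ : R} {ε : Rˣ} (h : S.IsSol m α β γ ε) (a : ℕ) :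
    S.IsSol m α (ζ ^ a * β) γ ε := by
  obtain ⟨h1, h2, H⟩ := h
  refine ⟨(isCoprime_mul_unit_left_right (S.zeta_isUnit.pow a) α β).mpr h1, h2, ?_⟩
  rw [mul_pow, ← pow_mul, mul_comm a p, pow_mul, S.zeta_pow, one_pow, one_mul, H]

/-- Some factor `α + ζ ^ a * β` is divisible by `(ζ - 1) ^ 2`. -/
lemma IsSol.exists_sq_dvd {m : ℕ} {α β γ : R} {ε : Rˣ} (h : S.IsSol m α β γ ε) (hm : 1 ≤ m) :
    ∃ a : ℕ, (ζ - 1) ^ 2 ∣ α + ζ ^ a * β := by
  obtain ⟨t, ht⟩ := h.lam_dvd_add S hm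
  have hβ := h.lam_not_dvd_right S hm
  obtain ⟨nt, ct, hnt⟩ := S.res t
  obtain ⟨nb, cb, hnb⟩ := S.res β
  have hpnb : ¬ (p : ℤ) ∣ nb := by
    intro hdiv
    apply hβ
    have : β = (nb : R) + (ζ - 1) * cb := by rw [← hnb]; ring
    rw [this]
    exact dvd_add (S.lam_dvd_intCast_iff.mpr hdiv) (dvd_mul_right _ _)
  have hcop : IsCoprime nb (p : ℤ) := by
    have hp' : Prime (p : ℤ) := Nat.prime_iff_prime_int.mp S.prime
    exact ((Prime.coprime_iff_not_dvd hp').mpr hpnb).symm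
  obtain ⟨c, d, hcd⟩ := hcop
  set z : ℤ := -nt * c with hz
  have hzmod : 0 ≤ z % (p : ℤ) := Int.emod_nonneg _ (by exact_mod_cast S.prime.ne_zero)
  set a : ℕ := (z % (p : ℤ)).toNat with ha_def
  have ha : (a : ℤ) = z - (p : ℤ) * (z / (p : ℤ)) := by
    rw [ha_def, Int.toNat_of_nonneg hzmod, Int.emod_def]
  have hdiv : (p : ℤ) ∣ (a : ℤ) * nb + nt := by
    refine ⟨nt * d - (z / (p : ℤ)) * nb, ?_⟩
    rw [ha, hz]
    linear_combination (-nt) * hcd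
  have hdiv' : (ζ - 1) ∣ ((a : R) * (nb : R) + (nt : R)) := by
    have := S.lam_dvd_intCast_iff.mpr hdiv
    push_cast at this
    exact this
  obtain ⟨c1, hc1⟩ := hdiv'
  obtain ⟨c2, hc2⟩ := S.lam_dvd_geom_sub a
  refine ⟨a, ?_⟩
  rw [S.add_zeta_pow_mul α β a, ht]
  have hβ' : β = (nb : R) + (ζ - 1) * cb := by rw [← hnb]; ring
  have ht' : t = (nt : R) + (ζ - 1) * ct := by rw [← hnt]; ring
  have hu : (∑ i ∈ range a, ζ ^ i) = (a : R) + (ζ - 1) * c2 := by rw [← hc2]; ring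
  refine ⟨ct + c2 * β + (a : R) * cb + c1, ?_⟩
  rw [hu]
  have key : t + ((a : R) + (ζ - 1) * c2) * β
      = (ζ - 1) * (ct + c2 * β + (a : R) * cb + c1) := by
    calc t + ((a : R) + (ζ - 1) * c2) * β
        = ((a : R) * (nb : R) + (nt : R)) + (ζ - 1) * (ct + c2 * β + (a : R) * cb) := by
          rw [ht']
          conv_lhs => rw [show ((a : R) + (ζ - 1) * c2) * β
            = (a : R) * β + (ζ - 1) * c2 * β by ring]
          conv_lhs => rw [show (a : R) * β = (a : R) * ((nb : R) + (ζ - 1) * cb) by rw [← hβ']]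
          ring
      _ = (ζ - 1) * (ct + c2 * β + (a : R) * cb + c1) := by rw [hc1]; ring
  calc (ζ - 1) * t + (ζ - 1) * (((a : R) + (ζ - 1) * c2) * β)
      = (ζ - 1) * (t + ((a : R) + (ζ - 1) * c2) * β) := by ring
    _ = (ζ - 1) ^ 2 * (ct + c2 * β + (a : R) * cb + c1) := by rw [key]; ring

/-- The key descent step, for a solution normalized so that `(ζ - 1) ^ 2 ∣ α + β`. -/
lemma IsSol.descent_of_sq_dvd (KL : KummerLemma R p) {m : ℕ} {α β γ : R} {ε : Rˣ}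
    (h : S.IsSol m α β γ ε) (hm : 1 ≤ m) (hsq : (ζ - 1) ^ 2 ∣ α + β) :
    ∃ (m' : ℕ) (α' β' γ' : R) (ε' : Rˣ), m = m' + 1 ∧ 1 ≤ m' ∧ S.IsSol m' α' β' γ' ε' := by
  have hp := S.prime
  have hp3 := S.three_le
  have hl0 : (ζ - 1) ≠ 0 := S.lam_ne_zero
  have hlp : Prime (ζ - 1) := S.lam_prime
  have hβ := h.lam_not_dvd_right S hm
  obtain ⟨hcop, hγ, H⟩ := h
  obtain ⟨s, hs⟩ := hsq
  -- the cofactors `y a`
  set u : ℕ → R := fun a => ∑ i ∈ range a, ζ ^ i with hu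
  set y : ℕ → R := fun a => (ζ - 1) * s + u a * β with hy
  have h_y : ∀ a, α + ζ ^ a * β = (ζ - 1) * y a := by
    intro a
    rw [S.add_zeta_pow_mul α β a, hs, hy, hu]
    ring
  have h_ynd : ∀ a, 0 < a → a < p → ¬ (ζ - 1) ∣ y a := by
    intro a ha0 hap hdiv
    have h1 : (ζ - 1) ∣ u a * β := (dvd_add_right (dvd_mul_right _ _)).mp hdiv
    have hua : IsUnit (u a) := S.unit_geom a ha0 hap
    exact hβ ((hua.dvd_mul_left).mp h1)
  have hy0 : y 0 = (ζ - 1) * s := by simp [hy, hu]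
  -- product formula
  have hprod : (ζ - 1) ^ p * ∏ a ∈ range p, y a = ε * (ζ - 1) ^ (p * m) * γ ^ p := by
    rw [← H, S.prod_eq α β]
    rw [Finset.prod_congr rfl (fun a _ => h_y a), Finset.prod_mul_distrib, Finset.prod_const,
      Finset.card_range]
  obtain ⟨m', rfl⟩ : ∃ m', m = m' + 1 := ⟨m - 1, by omega⟩
  have hprod2 : ∏ a ∈ range p, y a = ε * (ζ - 1) ^ (p * m') * γ ^ p := by
    have : (ζ - 1) ^ p * ∏ a ∈ range p, y a
        = (ζ - 1) ^ p * (ε * (ζ - 1) ^ (p * m') * γ ^ p) := by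
      rw [hprod, mul_add, mul_one, pow_add]; ring
    exact mul_left_cancel₀ (pow_ne_zero p hl0) this
  obtain ⟨p', hp'⟩ : ∃ p', p = p' + 1 := ⟨p - 1, by omega⟩
  set Y : R := ∏ a ∈ range p', y (a + 1) with hY
  have hYnd : ¬ (ζ - 1) ∣ Y := by
    intro hdiv
    obtain ⟨a, ha, hda⟩ := hlp.exists_mem_finset_dvd hdiv
    rw [Finset.mem_range] at ha
    exact h_ynd (a + 1) (by omega) (by omega) hda
  have hprod3 : Y * ((ζ - 1) * s) = ε * (ζ - 1) ^ (p * m') * γ ^ p := by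
    have h1 : ∏ a ∈ range (p' + 1), y a = Y * ((ζ - 1) * s) := by
      rw [Finset.prod_range_succ', hy0]
    rw [← hprod2, ← h1]
    conv_rhs => rw [hp']
  have hnd_rhs : ¬ (ζ - 1) ∣ (ε : R) * γ ^ p := by
    intro hdiv
    rcases hlp.dvd_or_dvd hdiv with h1 | h1
    · exact S.lam_not_dvd_of_unit ε.isUnit h1
    · exact hγ (hlp.dvd_of_dvd_pow h1)
  -- `m' ≥ 1`
  have hm' : 1 ≤ m' := by
    by_contra hcon
    have hm0 : m' = 0 := by omega
    apply hnd_rhs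
    have : (ε : R) * γ ^ p = (ζ - 1) * (Y * s) := by
      rw [hm0, mul_zero, pow_zero, mul_one] at hprod3
      rw [← hprod3]; ring
    rw [this]; exact dvd_mul_right _ _
  refine ⟨m', ?_⟩
  obtain ⟨k, hk⟩ : ∃ k, p * m' = k + 1 := ⟨p * m' - 1, by
    have : 1 ≤ p * m' := Nat.mul_pos S.p_pos hm'
    omega⟩
  have hprod4 : Y * s = ε * (ζ - 1) ^ k * γ ^ p := by
    have : (ζ - 1) * (Y * s) = (ζ - 1) * (ε * (ζ - 1) ^ k * γ ^ p) := by
      rw [hk, pow_succ] at hprod3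
      rw [← mul_assoc, mul_comm (ζ - 1) Y, mul_assoc, hprod3]; ring
    exact mul_left_cancel₀ hl0 this
  obtain ⟨x, hx⟩ : (ζ - 1) ^ k ∣ s := by
    apply hlp.pow_dvd_of_dvd_mul_left k hYnd
    rw [hprod4]
    exact Dvd.dvd.mul_right (dvd_mul_left _ _) _
  have hprod5 : Y * x = ε * γ ^ p := by
    have : (ζ - 1) ^ k * (Y * x) = (ζ - 1) ^ k * (ε * γ ^ p) := by
      rw [hx] at hprod4
      rw [← mul_assoc, mul_comm ((ζ - 1) ^ k) Y, mul_assoc, hprod4]; ring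
    exact mul_left_cancel₀ (pow_ne_zero k hl0) this
  have hxnd : ¬ (ζ - 1) ∣ x := by
    intro hdiv
    apply hnd_rhs
    rw [← hprod5]
    exact Dvd.dvd.mul_left hdiv _
  -- the family `f`
  set f : ℕ → R := fun a => if a = 0 then x else y a with hf
  have hf0 : f 0 = x := by simp [hf]
  have hfs : ∀ a, a ≠ 0 → f a = y a := fun a ha => by simp [hf, ha]
  have hf_nd : ∀ a, a < p → ¬ (ζ - 1) ∣ f a := by
    intro a hap
    by_cases ha : a = 0
    · rw [ha, hf0]; exact hxnd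
    · rw [hfs a ha]; exact h_ynd a (Nat.pos_of_ne_zero ha) hap
  have hf_dvd : ∀ a, f a ∣ y a := by
    intro a
    by_cases ha : a = 0
    · rw [ha, hf0, hy0, hx]
      exact Dvd.dvd.mul_left (dvd_mul_left _ _) _
    · rw [hfs a ha]
  have hf_prod : ∏ a ∈ range p, f a = ε * γ ^ p := by
    have h1 : ∏ a ∈ range (p' + 1), f a = Y * x := by
      rw [Finset.prod_range_succ', hf0, hY]
      exact congrArg (· * x) (Finset.prod_congr rfl (fun a _ => hfs (a + 1) (by omega)))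
    rw [← hprod5, ← h1]
    conv_lhs => rw [hp']
  -- pairwise coprimality
  have hcop_aux : ∀ a b, b < a → a < p → IsCoprime (f a) (f b) := by
    intro a b hba hap
    have hbp : b < p := by omega
    refine isCoprime_of_prime_dvd ?_ ?_
    · rintro ⟨h1, _⟩
      exact hf_nd a hap (h1 ▸ dvd_zero _)
    · intro π hπ hπa hπb
      have hya : π ∣ y a := hπa.trans (hf_dvd a)
      have hyb : π ∣ y b := hπb.trans (hf_dvd b)
      have e1 : (ζ ^ a - ζ ^ b) * β = (ζ - 1) * y a - (ζ - 1) * y b := by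
        rw [← h_y a, ← h_y b]; ring
      have e2 : (ζ ^ a - ζ ^ b) * α = ζ ^ a * ((ζ - 1) * y b) - ζ ^ b * ((ζ - 1) * y a) := by
        rw [← h_y a, ← h_y b]; ring
      have d1 : π ∣ (ζ ^ a - ζ ^ b) * β := by
        rw [e1]
        exact dvd_sub (Dvd.dvd.mul_left hya _) (Dvd.dvd.mul_left hyb _)
      have d2 : π ∣ (ζ ^ a - ζ ^ b) * α := by
        rw [e2]
        exact dvd_sub (Dvd.dvd.mul_left (Dvd.dvd.mul_left hyb _) _)
          (Dvd.dvd.mul_left (Dvd.dvd.mul_left hya _) _)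
      obtain ⟨c, d, hcd⟩ := hcop
      have d3 : π ∣ ζ ^ a - ζ ^ b := by
        have : ζ ^ a - ζ ^ b = c * ((ζ ^ a - ζ ^ b) * α) + d * ((ζ ^ a - ζ ^ b) * β) := by
          linear_combination (-(ζ ^ a - ζ ^ b)) * hcd
        rw [this]
        exact dvd_add (Dvd.dvd.mul_left d2 _) (Dvd.dvd.mul_left d1 _)
      obtain ⟨w, hw, hwe⟩ := S.zeta_pow_sub_zeta_pow hba hap
      rw [hwe] at d3
      have d4 : π ∣ (ζ - 1) := by
        rcases hπ.dvd_or_dvd d3 with h1 | h1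
        · exact h1
        · exact absurd (isUnit_of_dvd_unit h1 hw) hπ.not_isUnit
      have hassoc : Associated π (ζ - 1) := hπ.associated_of_dvd hlp d4
      exact hf_nd a hap (hassoc.symm.dvd.trans hπa)
  have hcop_pair : ∀ a b, a < p → b < p → a ≠ b → IsCoprime (f a) (f b) := by
    intro a b hap hbp hab
    rcases Nat.lt_or_gt_of_ne hab with h1 | h1
    · exact (hcop_aux b a h1 hbp).symm
    · exact hcop_aux a b h1 hap
  -- each `f i` is a unit times a `p`-th power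
  have hpow : ∀ i, i < p → ∃ (ρ : R) (e : Rˣ), ρ ^ p * e = f i := by
    intro i hip
    have hi : i ∈ range p := Finset.mem_range.mpr hip
    have h1 : f i * ∏ j ∈ (range p).erase i, f j = ε * γ ^ p := by
      rw [Finset.mul_prod_erase _ _ hi, hf_prod]
    have h2 : IsCoprime (f i) (∏ j ∈ (range p).erase i, f j) := by
      refine IsCoprime.prod_right fun j hj => ?_
      rw [Finset.mem_erase, Finset.mem_range] at hj
      exact hcop_pair i j hip hj.2 (Ne.symm hj.1)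
    have h3 : Associated (γ ^ p) (f i * ∏ j ∈ (range p).erase i, f j) :=
      ⟨ε, by rw [h1, mul_comm]⟩
    obtain ⟨ρ, e, he⟩ := exists_associated_pow_of_associated_pow_mul h2 h3
    exact ⟨ρ, e, he⟩
  obtain ⟨ρ₀, e₀, h₀⟩ := hpow 0 (by omega)
  obtain ⟨ρ₁, e₁, h₁⟩ := hpow 1 (by omega)
  obtain ⟨ρ₂, e₂, h₂⟩ := hpow (p - 1) (by omega)
  rw [hf0] at h₀
  rw [hfs 1 one_ne_zero] at h₁
  rw [hfs (p - 1) (by omega)] at h₂
  -- the linear relation
  have hrel : ζ * y (p - 1) + y 1 = (1 + ζ) * (ζ - 1) ^ (p * m') * x := by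
    have hz : ζ * ζ ^ (p - 1) = 1 := by
      rw [← pow_succ', show p - 1 + 1 = p by omega, S.zeta_pow]
    have e : (ζ - 1) * (ζ * y (p - 1) + y 1) = (ζ - 1) * ((1 + ζ) * (ζ - 1) ^ (p * m') * x) := by
      have h1 := h_y (p - 1)
      have h2 := h_y 1
      rw [pow_one] at h2
      rw [hk, pow_succ]
      calc (ζ - 1) * (ζ * y (p - 1) + y 1)
          = ζ * ((ζ - 1) * y (p - 1)) + (ζ - 1) * y 1 := by ring
        _ = ζ * (α + ζ ^ (p - 1) * β) + (α + ζ * β) := by rw [h1, h2]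
        _ = (1 + ζ) * (α + β) + (ζ * ζ ^ (p - 1) - 1) * β := by ring
        _ = (1 + ζ) * ((ζ - 1) ^ 2 * s) := by rw [hz, hs]; ring
        _ = (ζ - 1) * ((1 + ζ) * ((ζ - 1) ^ k * (ζ - 1)) * x) := by rw [hx]; ring
    exact mul_left_cancel₀ hl0 e
  have h1ζ : IsUnit (1 + ζ) := by
    have := S.unit_geom 2 (by omega) (by omega)
    simpa [Finset.sum_range_succ] using this
  set η : Rˣ := S.zeta_isUnit.unit * e₂ * e₁⁻¹ with hη
  set ε' : Rˣ := h1ζ.unit * e₀ * e₁⁻¹ with hε'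
  have hnew : ρ₁ ^ p + (η : R) * ρ₂ ^ p = (ε' : R) * (ζ - 1) ^ (p * m') * ρ₀ ^ p := by
    have hη' : (η : R) = ζ * e₂ * (e₁⁻¹ : Rˣ) := by
      rw [hη]; simp [IsUnit.unit_spec]
    have hε'' : (ε' : R) = (1 + ζ) * e₀ * (e₁⁻¹ : Rˣ) := by
      rw [hε']; simp [IsUnit.unit_spec]
    have he1 : (e₁ : R) * (e₁⁻¹ : Rˣ) = 1 := by simp
    rw [← h₀, ← h₁, ← h₂] at hrel
    rw [hη', hε'']
    calc ρ₁ ^ p + ζ * e₂ * (e₁⁻¹ : Rˣ) * ρ₂ ^ p
        = ρ₁ ^ p * ((e₁ : R) * (e₁⁻¹ : Rˣ)) + ζ * e₂ * (e₁⁻¹ : Rˣ) * ρ₂ ^ p := by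
          rw [he1, mul_one]
      _ = (ζ * (ρ₂ ^ p * e₂) + ρ₁ ^ p * e₁) * (e₁⁻¹ : Rˣ) := by ring
      _ = ((1 + ζ) * (ζ - 1) ^ (p * m') * (ρ₀ ^ p * e₀)) * (e₁⁻¹ : Rˣ) := by rw [hrel]
      _ = (1 + ζ) * e₀ * (e₁⁻¹ : Rˣ) * (ζ - 1) ^ (p * m') * ρ₀ ^ p := by ring
  -- `η` is congruent to an integer mod `p`
  have hpdvd : (p : R) ∣ ρ₁ ^ p + (η : R) * ρ₂ ^ p := by
    rw [hnew]
    refine Dvd.dvd.mul_right (Dvd.dvd.mul_left (S.p_dvd_lam_pow ?_) _) _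
    calc p - 1 ≤ p * 1 := by omega
      _ ≤ p * m' := Nat.mul_le_mul_left p hm'
  have hρ₂nd : ¬ (ζ - 1) ∣ ρ₂ := by
    intro hdiv
    apply h_ynd (p - 1) (by omega) (by omega)
    rw [← h₂]
    exact Dvd.dvd.mul_right (dvd_pow hdiv hp.ne_zero) _
  obtain ⟨n₁, hn₁, -⟩ := S.exists_int_pow_congr ρ₁
  obtain ⟨n₂, hn₂, hn₂'⟩ := S.exists_int_pow_congr ρ₂
  have hpn₂ : ¬ (p : ℤ) ∣ n₂ := fun hd => hρ₂nd (hn₂'.mpr hd)
  have hcop2 : IsCoprime n₂ (p : ℤ) := by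
    have hp' : Prime (p : ℤ) := Nat.prime_iff_prime_int.mp hp
    exact ((Prime.coprime_iff_not_dvd hp').mpr hpn₂).symm
  obtain ⟨c, d, hcd⟩ := hcop2
  have hηint : ∃ n : ℤ, (p : R) ∣ (η : R) - n := by
    refine ⟨-n₁ * c, ?_⟩
    obtain ⟨w0, hw0⟩ := hpdvd
    obtain ⟨w1, hw1⟩ := hn₁
    obtain ⟨w2, hw2⟩ := hn₂
    have hcd' : (c : R) * (n₂ : R) + (d : R) * (p : R) = 1 := by exact_mod_cast congrArg (Int.cast : ℤ → R) hcd
    refine ⟨(c : R) * (w0 - w1 - (η : R) * w2) + (η : R) * d, ?_⟩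
    push_cast
    linear_combination (c : R) * hw0 - (c : R) * hw1 - (c : R) * (η : R) * hw2 - (η : R) * hcd'
  obtain ⟨θ, hθ⟩ := KL η hηint
  refine ⟨ρ₁, θ * ρ₂, ρ₀, ε', rfl, hm', ?_, ?_, ?_⟩
  · -- coprimality
    have h12 : IsCoprime (y 1) (y (p - 1)) := by
      have := hcop_pair 1 (p - 1) (by omega) (by omega) (by omega)
      rwa [hfs 1 one_ne_zero, hfs (p - 1) (by omega)] at this
    rw [← h₁, ← h₂] at h12
    have h12' : IsCoprime (ρ₁ ^ p) (ρ₂ ^ p) :=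
      (h12.of_mul_left_left).of_mul_right_left
    have h12'' : IsCoprime ρ₁ ρ₂ := (IsCoprime.pow_iff hp.pos hp.pos).mp h12'
    exact (isCoprime_mul_unit_left_right θ.isUnit ρ₁ ρ₂).mpr h12''
  · intro hdiv
    apply hxnd
    rw [← h₀]
    exact Dvd.dvd.mul_right (dvd_pow hdiv hp.ne_zero) _
  · rw [mul_pow, ← Units.val_pow_eq_pow_val, ← hθ, hnew]

/-- The descent step for an arbitrary solution. -/
lemma IsSol.descent (KL : KummerLemma R p) {m : ℕ} {α β γ : R} {ε : Rˣ}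
    (h : S.IsSol m α β γ ε) (hm : 1 ≤ m) :
    ∃ (m' : ℕ) (α' β' γ' : R) (ε' : Rˣ), m = m' + 1 ∧ 1 ≤ m' ∧ S.IsSol m' α' β' γ' ε' := by
  obtain ⟨a, ha⟩ := h.exists_sq_dvd S hm
  exact (h.mul_zeta_pow S a).descent_of_sq_dvd S KL hm ha

/-- **Case II (abstract form)**: the generalized Fermat equation has no solution. -/
theorem not_isSol (KL : KummerLemma R p) :
    ∀ m : ℕ, 1 ≤ m → ∀ (α β γ : R) (ε : Rˣ), ¬ S.IsSol m α β γ ε := by
  intro m
  induction m with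
  | zero => intro h; omega
  | succ n ih =>
    intro _ α β γ ε h
    obtain ⟨m', α', β', γ', ε', hm, hm', h'⟩ := h.descent S KL (by omega)
    have : m' = n := by omega
    subst this
    exact ih hm' _ _ _ _ h'

/-- **Case II (abstract form, unfolded)**. -/
theorem caseII_abstract (KL : KummerLemma R p) (m : ℕ) (hm : 1 ≤ m) (α β γ : R) (ε : Rˣ)
    (hcop : IsCoprime α β) (hγ : ¬ (ζ - 1) ∣ γ)
    (H : α ^ p + β ^ p = ε * (ζ - 1) ^ (p * m) * γ ^ p) : False :=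
  S.not_isSol KL m hm α β γ ε ⟨hcop, hγ, H⟩

end Descent

end KummerSetup

end Fermat.Agent.S11
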