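import Mathlib
import Fermat.Agent.S11.Glue

/-!
# Case II of Fermat's Last Theorem: reduction from `ℤ` to the ring of integers of `ℚ(ζ_p)`

If the generalized descent statement over `𝓞 K` holds (no solution of
`α ^ p + β ^ p = ε * λ ^ (p * m) * γ ^ p` with `m ≥ 1`, `λ = ζ - 1` not dividing `α β γ`, and
`α`, `β` coprime), then there is no integer solution of `a ^ p + b ^ p = c ^ p` with `p ∣ c`.
-/

set_option autoImplicit false

open NumberField

namespace Fermat.Agent.S11.CaseIIInt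

variable (p : ℕ) [hp : Fact p.Prime] (K : Type*) [Field K] [NumberField K]
  [IsCyclotomicExtension {p} ℚ K]

/-- `λ = ζ - 1` for the chosen primitive `p`-th root of unity `ζ = zeta p ℚ K`. -/
noncomputable def lam : 𝓞 K := (IsCyclotomicExtension.zeta_spec p ℚ K).toInteger - 1

/-- The descent statement over `𝓞 K` (second case of Fermat's Last Theorem, Kummer's form). -/
def Descent : Prop :=
  ∀ (m : ℕ) (α β γ : 𝓞 K) (ε : (𝓞 K)ˣ), 1 ≤ m → IsCoprime α β →
    ¬ lam p K ∣ α → ¬ lam p K ∣ β → ¬ lam p K ∣ γ →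
    α ^ p + β ^ p = ε * lam p K ^ (p * m) * γ ^ p → False

variable {p K}

theorem lam_dvd_intCast_iff {n : ℤ} : lam p K ∣ (n : 𝓞 K) ↔ (p : ℤ) ∣ n :=
  IsCyclotomicExtension.Rat.zeta_sub_one_dvd_intCast_iff' p
    (IsCyclotomicExtension.zeta_spec p ℚ K)

theorem exists_unit_mul_lam_pow_eq :
    ∃ u : (𝓞 K)ˣ, (p : 𝓞 K) = u * lam p K ^ (p - 1) := by
  obtain ⟨u, hu⟩ := IsCyclotomicExtension.Rat.associated_zeta_sub_one_pow_prime p
    (IsCyclotomicExtension.zeta_spec p ℚ K)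
  exact ⟨u, by rw [← hu, mul_comm]; rfl⟩

/-- The second case for integers follows from the descent statement over `𝓞 K`. -/
theorem caseII_of_descent (h : Descent p K) : Fermat.Agent.S11.CaseII p := by
  intro a b c hc hab hpc hFLT
  have hpprime : Prime (p : ℤ) := Nat.prime_iff_prime_int.mp hp.out
  -- `p ∤ a`, `p ∤ b`
  have hpa : ¬ (p : ℤ) ∣ a := by
    intro hpa
    have hpb : (p : ℤ) ∣ b ^ p := by
      have : b ^ p = c ^ p - a ^ p := by rw [← hFLT]; ring
      rw [this]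
      exact dvd_sub (dvd_pow hpc hp.out.ne_zero) (dvd_pow hpa hp.out.ne_zero)
    exact hpprime.not_isUnit (hab.isUnit_of_dvd' hpa (hpprime.dvd_of_dvd_pow hpb))
  have hpb : ¬ (p : ℤ) ∣ b := by
    intro hpb
    have hpa' : (p : ℤ) ∣ a ^ p := by
      have : a ^ p = c ^ p - b ^ p := by rw [← hFLT]; ring
      rw [this]
      exact dvd_sub (dvd_pow hpc hp.out.ne_zero) (dvd_pow hpb hp.out.ne_zero)
    exact hpa (hpprime.dvd_of_dvd_pow hpa')
  -- write `c = p ^ k * c₀`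
  have hfin : FiniteMultiplicity (p : ℤ) c :=
    Int.finiteMultiplicity_iff.mpr ⟨by simpa using hp.out.ne_one, hc⟩
  obtain ⟨c₀, hc₀, hpc₀⟩ := hfin.exists_eq_pow_mul_and_not_dvd
  set k := multiplicity (p : ℤ) c with hk
  have hk1 : 1 ≤ k := by
    rcases Nat.eq_zero_or_pos k with h0 | h0
    · exfalso
      rw [h0, pow_zero, one_mul] at hc₀
      exact hpc₀ (hc₀ ▸ hpc)
    · exact h0
  obtain ⟨u, hu⟩ := exists_unit_mul_lam_pow_eq (p := p) (K := K)
  have hp1 : 1 ≤ p - 1 := by have := hp.out.two_le; omega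
  refine h ((p - 1) * k) (a : 𝓞 K) (b : 𝓞 K) (c₀ : 𝓞 K) (u ^ (k * p))
    (Nat.one_le_iff_ne_zero.mpr (Nat.mul_ne_zero (by omega) (by omega))) ?_ ?_ ?_ ?_ ?_
  · exact hab.map (Int.castRingHom (𝓞 K))
  · rwa [lam_dvd_intCast_iff]
  · rwa [lam_dvd_intCast_iff]
  · rwa [lam_dvd_intCast_iff]
  · have h1 : ((a : 𝓞 K)) ^ p + (b : 𝓞 K) ^ p = (c : 𝓞 K) ^ p := by exact_mod_cast hFLT
    rw [h1, hc₀]
    push_cast
    rw [hu]
    ring

end Fermat.Agent.S11.CaseIIInt
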