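import Fermat.Agent.S11.SophieGermain
import Fermat.Prelude.Def_FLTPrelim_FreyPackage

/-!
# Case I for Frey packages with `p ∈ {5, 7, 11, 13}`
-/

set_option autoImplicit false

namespace Fermat.Agent.S11

theorem frey_isCoprime_ab (P : FreyPackage) : IsCoprime P.a P.b := by
  rw [Int.isCoprime_iff_gcd_eq_one]
  have h := P.hgcdab
  have h2 : ((Int.gcd P.a P.b : ℕ) : ℤ) = 1 := h
  exact_mod_cast h2

/-- A Frey package with `p ∈ {5, 7, 11, 13}` is in Case II: `p ∣ a b c`. -/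
theorem frey_caseI (P : FreyPackage) (hp : P.p = 5 ∨ P.p = 7 ∨ P.p = 11 ∨ P.p = 13) :
    (P.p : ℤ) ∣ P.a * P.b * P.c :=
  caseI_of_mem hp (frey_isCoprime_ab P) P.hFLT

end Fermat.Agent.S11
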