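import Fermat.Agent.S11.Assembly
import Fermat.Agent.Lib.FltSmall.KummerMain
import Fermat.Agent.Lib.FltSmall.KummerCertSmall
import Fermat.Agent.S10.PID13

/-!
# S10 / S11 from the Kummer independence certificates

With `Fermat.Agent.Lib.FltSmall.kummersLemma_of_cert` (certificate ⇒ Kummer's
lemma) and `Fermat.Agent.S11.Assembly`, the frozen statements S11 and S10 follow from
`KummerCert 11`, resp. `KummerCert 13` (the certificates for `5` and `7` and all PID facts are
already proved).
-/

set_option autoImplicit false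

open NumberField
open WeierstrassCurve WeierstrassCurve.Affine WeierstrassCurve.Affine.Point
open FreyPackage

namespace Fermat.Agent.S11.KummerBridge

open Fermat.Agent.S11 Fermat.Agent.Lib.FltSmall

/-- Kummer's lemma (in the form used by the case II descent) from the certificate. -/
theorem kummerLemma_of_cert (p : ℕ) [Fact p.Prime] (hp : p ≠ 2) (hcert : KummerCert p) :
    KummerLemma (𝓞 (CyclotomicField p ℚ)) p := by
  have : NeZero p := ⟨(Fact.out : p.Prime).ne_zero⟩
  have := Assembly.isCyclotomicExtension_rat p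
  rintro u ⟨n, hn⟩
  exact kummersLemma_of_cert hp hcert u n hn

/-- `𝓞 (CyclotomicField 13 ℚ)` is a PID. -/
theorem pid_thirteen : IsPrincipalIdealRing (𝓞 (CyclotomicField 13 ℚ)) :=
  have := Assembly.isCyclotomicExtension_rat 13
  Fermat.Agent.S10.thirteen_pid (CyclotomicField 13 ℚ)

/-- S11 from the certificate for `p = 11`. -/
theorem s11_of_cert (h11 : KummerCert 11) (P : FreyPackage) (hp : P.p = 11) :
    ¬ HasGaloisStableCofixedLine (K := AlgebraicClosure ℚ) ℚ P.freyCurve P.p :=
  have : Fact (Nat.Prime 11) := ⟨by norm_num⟩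
  Assembly.s11_of_kummer (kummerLemma_of_cert 11 (by norm_num) h11) P hp

/-- S10 from the certificate for `p = 13`. -/
theorem s10_of_cert (h13 : KummerCert 13) (P : FreyPackage)
    (hp : P.p = 5 ∨ P.p = 7 ∨ P.p = 13) :
    ¬ HasGaloisStableCofixedLine (K := AlgebraicClosure ℚ) ℚ P.freyCurve P.p :=
  have : Fact (Nat.Prime 5) := ⟨by norm_num⟩
  have : Fact (Nat.Prime 7) := ⟨by norm_num⟩
  have : Fact (Nat.Prime 13) := ⟨by norm_num⟩
  Assembly.s10_of_kummer (kummerLemma_of_cert 5 (by norm_num) kummerCert_five)
    (kummerLemma_of_cert 7 (by norm_num) kummerCert_seven)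
    (kummerLemma_of_cert 13 (by norm_num) h13) pid_thirteen P hp

end Fermat.Agent.S11.KummerBridge
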